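/-
MAZ moduli side, link (4) VAL of report 1165 (helper18, hedge for BR3): VALUES AT POINT PLACES.

For `τ ∈ ℍ` with `j(τ) = ι(a)`, `a ∈ ℚbar`, the place `placeAt N τ a ha` of `FF N` attached to `τ`
(`X0.PointPlacesD.pointPlaceD` at `g = 1`) computes the values of NICE functions: if `f ∈ ℚbar((q))`
is the `q`-expansion of the holomorphic `Γ₀(N)`-invariant function `g` (`QExpMem19.IsNice N f g`) and
`g τ = ι(c)`, then the element `⟨f, _⟩` of `FF N` has the value `c` at the place.

Consumer form (`valHyp`): for `jFun τ = ι a`, `jdFun p τ = ι b`, `deltaQuotInv p τ = ι U` there is a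
place `x` of `FF p` with `0 < ord_x (j - a)`, `0 < ord_x (j_p - b)` and `IsVal x uqInv U`.
-/
import Mathlib
import Fermat.Agent.X0.PointPlacesD
import Fermat.Agent.X0.PointPlacesPos
import Fermat.Agent.RED.BASE.QExpMem19
import Fermat.Agent.RED.BASE.DeltaMem19
import Fermat.Agent.MW.Bridge34.PlaceHom

set_option autoImplicit false
set_option linter.unusedSectionVars false

open UpperHalfPlane AlgebraicCurve ModularCurve
open scoped MatrixGroups

noncomputable section

namespace Fermat.Agent.MAZ.Val18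

open Fermat.Agent.X0 Fermat.Agent.X0.Analytic Fermat.Agent.X0.PointPlaces
  Fermat.Agent.X0.PointPlacesD Fermat.Agent.X0.PointPlacesPos
open Fermat.Agent.RED.BASE.QExpMem19 Fermat.Agent.RED.BASE.DeltaMem19
open Fermat.Agent.MW.Bridge34

variable (N : ℕ) [NeZero N]

/-- The place of `FF N` attached to the point `τ` (with `j(τ) = ι(a)`). -/
def placeAt (τ : ℍ) (a : Kbar) (ha : jFun τ = iotaK a) : Place Kbar (FF N) :=
  pointPlaceD (realizeData N) τ a ha 1

/-- Its multiplicity. -/
def multAt (τ : ℍ) (a : Kbar) (ha : jFun τ = iotaK a) : ℕ :=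
  pointMultD (realizeData N) τ a ha 1

theorem isPointPlace_placeAt (τ : ℍ) (a : Kbar) (ha : jFun τ = iotaK a) :
    IsPointPlace (realize N) 1 τ (placeAt N τ a ha) (multAt N τ a ha) :=
  isPointPlace_pointPlaceD (realizeData N) τ a ha 1

theorem placeAt_ord_j_pos (τ : ℍ) (a : Kbar) (ha : jFun τ = iotaK a) :
    0 < (placeAt N τ a ha).ord (jF N - algebraMap Kbar (FF N) a) :=
  pointPlaceD_ord_pos (realizeData N) τ a ha 1

variable {N}

/-- **General value principle.** -/
theorem isVal_of_isNice {f : LaurentSeries Kbar} {g : ℍ → ℂ} (h : IsNice N f g) (τ : ℍ) (a : Kbar)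
    (ha : jFun τ = iotaK a) (c : Kbar) (hc : g τ = iotaK c) :
    IsVal (placeAt N τ a ha) (⟨f, mem_of_isNice h⟩ : FF N) c := by
  obtain ⟨u, b, hb, hwb, hfun⟩ := exists_fraction_of_isNice h
  set w : FF N := ⟨f, mem_of_isNice h⟩ with hw
  have hbF : (b : FF N) ≠ 0 := fun h0 => hb (Subtype.ext h0)
  have hIP := isPointPlace_placeAt N τ a ha
  have hΘ : IsRealize (realize N) := isRealize (realizeData N)
  -- the numerator of `w - c`
  set s : Rsub N := u - algebraMap Kbar (Rsub N) c * b with hs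
  have hsF : (s : FF N) = (w - algebraMap Kbar (FF N) c) * (b : FF N) := by
    rw [sub_mul, hwb]
    rfl
  rw [isVal_iff_ord]
  by_cases hs0 : s = 0
  · left
    have h1 : (w - algebraMap Kbar (FF N) c) * (b : FF N) = 0 := by
      rw [← hsF, hs0]; rfl
    rcases mul_eq_zero.1 h1 with h2 | h2
    · exact sub_eq_zero.1 h2
    · exact absurd h2 hbF
  · right
    have hsF0 : (s : FF N) ≠ 0 := fun h0 => hs0 (Subtype.ext h0)
    have hdiv : w - algebraMap Kbar (FF N) c = (s : FF N) / (b : FF N) := by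
      rw [hsF, mul_div_cancel_right₀ _ hbF]
    -- realisations
    have hΘs : realize N s = realize N b * (g - fun _ => iotaK c) := by
      rw [hs, map_sub, map_mul, hΘ.map_algebraMap c]
      funext z
      show realize N u z - iotaK c * realize N b z = realize N b z * (g z - iotaK c)
      rw [hfun z]
      ring
    have hg' : (g - fun _ => iotaK c) ∈ HolH := HolH.sub_mem h.hol (HolH.algebraMap_mem (iotaK c))
    have hord := ord_div' hIP hΘ hs0 hb
    rw [inv_one, one_smul, hΘs, ordH_mul (hΘ.hol b) hg'] at hord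
    have hΘs0 : realize N s ≠ 0 := fun h0 => hs0 (hΘ.inj (by rw [h0, map_zero]))
    have hg0 : (g - fun _ => iotaK c) ≠ 0 := by
      intro h0
      apply hΘs0
      rw [hΘs, h0, mul_zero]
    have hb0 : realize N b ≠ 0 := fun h0 => hb (hΘ.inj (by rw [h0, map_zero]))
    have htb := ordH_ne_top (hΘ.hol b) hb0 τ
    have htg := ordH_ne_top hg' hg0 τ
    rw [ENat.toNat_add htb htg] at hord
    have hpos : 0 < (ordH (g - fun _ => iotaK c) τ).toNat := by
      rw [Nat.pos_iff_ne_zero]
      intro h'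
      rcases (ENat.toNat_eq_zero).mp h' with h'' | h''
      · have := (ordH_eq_zero_iff hg' τ).1 h''
        apply this
        show g τ - iotaK c = 0
        rw [hc, sub_self]
      · exact htg h''
    have hm : (0 : ℤ) < multAt N τ a ha := by exact_mod_cast hIP.1
    rw [hdiv]
    push_cast at hord
    by_contra hneg
    have h2 : (placeAt N τ a ha).ord ((s : FF N) / (b : FF N)) ≤ 0 := not_lt.mp hneg
    have h3 : (multAt N τ a ha : ℤ) * (placeAt N τ a ha).ord ((s : FF N) / (b : FF N)) ≤ 0 :=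
      mul_nonpos_of_nonneg_of_nonpos hm.le h2
    have h4 : (0 : ℤ) < ((ordH (g - fun _ => iotaK c) τ).toNat : ℤ) := by exact_mod_cast hpos
    omega

/-! ### The generators `j_d` -/

variable (N)

/-- `j_d` is not a constant. -/
theorem jdF_ne_algebraMap (d : ℕ) [NeZero d] (hd : d ∣ N) (c : Kbar) :
    jdF N d hd ≠ algebraMap Kbar (FF N) c := by
  intro h
  have h1 : ((jdF N d hd : FF N) : LaurentSeries Kbar).coeff (-(d : ℤ)) =
      ((algebraMap Kbar (FF N) c : FF N) : LaurentSeries Kbar).coeff (-(d : ℤ)) := by rw [h]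
  have h2 : ((algebraMap Kbar (FF N) c : FF N) : LaurentSeries Kbar) = HahnSeries.single 0 c := by
    rw [← algebraMap_laurentSeries_eq_single]
    rfl
  have hd0 : -(d : ℤ) ≠ 0 := by
    have := NeZero.ne d
    omega
  rw [FracR.coe_jdF, coeffEmb_coeff, show -(d : ℤ) = (d : ℤ) * (-1) by ring, qExpand_coeff_mul,
    coeff_jq_neg_one, map_one, h2, HahnSeries.coeff_single_of_ne (by simpa using hd0)] at h1
  exact one_ne_zero h1

/-- The value of `j_d` at the place of `τ` is `j(dτ)`, in order form. -/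
theorem placeAt_ord_jd_pos (τ : ℍ) (a : Kbar) (ha : jFun τ = iotaK a) (d : ℕ) [NeZero d]
    (hd : d ∣ N) (b : Kbar) (hb : jdFun d τ = iotaK b) :
    0 < (placeAt N τ a ha).ord (jdF N d hd - algebraMap Kbar (FF N) b) := by
  have hIP := isPointPlace_placeAt N τ a ha
  have hΘ : IsRealize (realize N) := isRealize (realizeData N)
  set u : Rsub N := jdR N d hd - algebraMap Kbar (Rsub N) b with hu
  have huF : (u : FF N) = jdF N d hd - algebraMap Kbar (FF N) b := rfl
  have hu0 : u ≠ 0 := by
    intro h0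
    have h1 : (u : FF N) = 0 := by rw [h0]; rfl
    rw [huF, sub_eq_zero] at h1
    exact jdF_ne_algebraMap N d hd b h1
  rw [← huF, ord_coe_pos_iff hIP hΘ hu0, inv_one, one_smul, hu, map_sub, hΘ.map_algebraMap]
  show realize N (jdR N d hd) τ - iotaK b = 0
  have hjd : realize N (jdR N d hd) = jdFun d := (realizeData N).jd_eq d hd
  rw [hjd, hb, sub_self]

/-! ### Consumer form -/

variable (p : ℕ) [NeZero p]

/-- **(VAL)**: the place of `FF p` at `τ` with the three values `j ↦ a`, `j_p ↦ b`,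
`Δ(q)/Δ(q^p) ↦ U`. -/
theorem valHyp (τ : ℍ) (a b U : Kbar) (ha : jFun τ = iotaK a) (hb : jdFun p τ = iotaK b)
    (hU : deltaQuotInv p τ = iotaK U) :
    ∃ x : Place Kbar (FF p), 0 < x.ord (jF p - algebraMap Kbar (FF p) a) ∧
      0 < x.ord (jdF p p (dvd_refl p) - algebraMap Kbar (FF p) b) ∧
      IsVal x (⟨uqInv p Kbar, uqInv_mem p (dvd_refl p)⟩ : FF p) U :=
  ⟨placeAt p τ a ha, placeAt_ord_j_pos p τ a ha, placeAt_ord_jd_pos p τ a ha p (dvd_refl p) b hb,
    isVal_of_isNice (isNice_deltaQuotInv p) τ a ha U hU⟩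

end Fermat.Agent.MAZ.Val18
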